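import Fermat.Agent.H13.Cft.WaistV2
import Fermat.Agent.H42.CftPermInduction
import Fermat.Agent.H99.Cft.LvlDelta
import Fermat.Agent.H13.Cft.Assembly

/-!
# P-CFT, row SD-DEV (helper5): finiteness and vanishing dévissage for level cohomology

If `Hⁿ(𝒰, 𝔽_p[G/U])` is finite (resp. zero) for all `χ`-open `U`, then `Hⁿ(𝒰, M)` is finite
(resp. zero) for every finite `M` trivialised by a level: the class of such `M` is closed under
retracts and extensions (long exact sequence), so the permutation-module induction principle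
applies.
-/

set_option autoImplicit false

noncomputable section

namespace Fermat.Agent.H5.Cft

open CategoryTheory Fermat.Agent.H13.Cft Fermat.Agent.H99.Cft Fermat.Agent.H19

variable {p : ℕ} [Fact p.Prime] {G : Type} [Group G]

/-- A retraction on coefficients gives an injection on level cohomology. -/
theorem lvlHMap_injective_of_retract (𝒰 : LevelSys G) {M M' : Rep (ZMod p) G} (i : M ⟶ M')
    (r : M' ⟶ M) (h : i ≫ r = 𝟙 M) (n : ℕ) :
    Function.Injective (lvlHMap 𝒰 i n).hom := by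
  have h1 : lvlHMap 𝒰 i n ≫ lvlHMap 𝒰 r n = 𝟙 _ := by
    rw [lvlHMap, lvlHMap, ← HomologicalComplex.homologyMap_comp, ← lvlMap_comp, h, lvlMap_id,
      HomologicalComplex.homologyMap_id]
  have h2 : ∀ x, (lvlHMap 𝒰 r n).hom ((lvlHMap 𝒰 i n).hom x) = x := fun x =>
    hapi_comp_apply _ _ _ h1 x
  exact Function.LeftInverse.injective h2

/-- The dévissage for a class of modules closed under submodules and extensions. -/
theorem devissage (𝒰 : LevelSys G) (χ : G →* (ZMod p)ˣ)
    (hχ : ∃ N ∈ 𝒰.sets, ∀ s ∈ N, χ s = 1) (n : ℕ)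
    (P : ModuleCat (ZMod p) → Prop)
    (hsub : ∀ (A B : ModuleCat (ZMod p)) (f : A ⟶ B), Function.Injective f.hom → P B → P A)
    (hextP : ∀ (A B C : ModuleCat (ZMod p)) (f : A ⟶ B) (g : B ⟶ C),
      Function.Exact f.hom g.hom → P A → P C → P B)
    (hbase : ∀ U : Subgroup G, IsChiOpen 𝒰 χ U →
      P (lvlH 𝒰 (Rep.ofMulAction (ZMod p) G (G ⧸ U)) n))
    (M : Rep (ZMod p) G) (hfin : Module.Finite (ZMod p) M) (htriv : IsTrivialisedBy 𝒰 M) :
    P (lvlH 𝒰 M n) := by
  obtain ⟨N₁, hN₁, htriv⟩ := htriv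
  obtain ⟨N₂, hN₂, hχ⟩ := hχ
  obtain ⟨N, hN, hle⟩ := 𝒰.directed N₁ hN₁ N₂ hN₂
  have := 𝒰.normal N hN
  have := 𝒰.finiteIndex N hN
  refine Fermat.Agent.H42.Cft.permInduction p G N (fun M => P (lvlH 𝒰 M n)) ?_ ?_ ?_ ?_ M
    ⟨hfin, fun s hs => htriv s (hle.trans inf_le_left hs)⟩
  · rintro M M' ⟨e⟩ hM
    exact hsub _ _ (lvlHMap 𝒰 e.inv n)
      (lvlHMap_injective_of_retract 𝒰 e.inv e.hom e.inv_hom_id n) hM
  · intro X hX hgood h1 h3
    have hsm : IsSmooth 𝒰 X.X₂ := IsTrivialisedBy.isSmooth ⟨N, hN, hgood.2⟩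
    exact hextP _ _ _ (lvlHMap 𝒰 X.f n) (lvlHMap 𝒰 X.g n) (lvlH_exact₂ 𝒰 hX hsm n) h1 h3
  · intro M M' i r hir _ hM'
    exact hsub _ _ (lvlHMap 𝒰 i n) (lvlHMap_injective_of_retract 𝒰 i r hir n) hM'
  · rintro U hNU - ⟨m, hm⟩
    exact hbase U ⟨⟨N, hN, hNU⟩,
      char_trivial_of_pgroup χ N (fun s hs => hχ s (hle.trans inf_le_right hs)) U hm⟩

/-- **[FIN]** -/
theorem finDevissage : FinDevissageStatement := by
  intro p _ G _ 𝒰 χ hχ n hbase M hfin htriv
  refine devissage 𝒰 χ hχ n (fun A => Module.Finite (ZMod p) A) ?_ ?_ hbase M hfin htriv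
  · intro A B f hf hB
    exact Module.Finite.of_injective f.hom hf
  · intro A B C f g hex hA hC
    have hA' : IsNoetherian (ZMod p) A := IsNoetherian.iff_fg.mpr hA
    have hC' : IsNoetherian (ZMod p) C := IsNoetherian.iff_fg.mpr hC
    have : IsNoetherian (ZMod p) B :=
      isNoetherian_of_range_eq_ker f.hom g.hom hex.linearMap_ker_eq.symm
    exact IsNoetherian.iff_fg.mp this

/-- **[VAN]** -/
theorem vanishDevissage : VanishDevissageStatement := by
  intro p _ G _ 𝒰 χ hχ n hbase M hfin htriv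
  refine devissage 𝒰 χ hχ n (fun A => Limits.IsZero A) ?_ ?_ hbase M hfin htriv
  · intro A B f hf hB
    have := ModuleCat.subsingleton_of_isZero hB
    have : Subsingleton A := hf.subsingleton
    exact ModuleCat.isZero_of_subsingleton A
  · intro A B C f g hex hA hC
    have hA' := ModuleCat.subsingleton_of_isZero hA
    have hC' := ModuleCat.subsingleton_of_isZero hC
    have : Subsingleton B := by
      refine ⟨fun x y => ?_⟩
      have hx : g.hom (x - y) = 0 := Subsingleton.elim _ _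
      obtain ⟨a, ha⟩ := (hex (x - y)).mp hx
      have ha0 : a = 0 := Subsingleton.elim _ _
      rw [ha0, map_zero] at ha
      exact sub_eq_zero.mp ha.symm
    exact ModuleCat.isZero_of_subsingleton B

end Fermat.Agent.H5.Cft

end
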