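/-
P-CFT row 944 SD-M3BD (helper5): `BdMonoStatement`.

If the boundary classes at `v` of `P = 𝔽_p[G/N]` are spanned by one element and every class of
`H³` of the dual side is `Θ³` of a boundary class, then `Θ³` is injective on the boundary
classes.  The only content: `H³(dualCx K) ≠ 0` for `K = lvlComplex 𝔄.lvl (P.dualTwist χ)`,
because `H⁰(G, P^*(χ)) ≠ 0` (the linear form `[g N] ↦ χ g` is invariant).
-/
import Fermat.Agent.H13.Cft.WaistV4
import Fermat.Agent.H19.Cft.HomologyApi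

set_option autoImplicit false
set_option linter.unusedSectionVars false
set_option linter.style.haveILetI false

universe u

open CategoryTheory

namespace Fermat.Agent.H5.Cft

open Fermat.Agent.H13.Cft Fermat.Agent.H19

section abstract

variable {k : Type u} [Field k]

/-- Pure linear algebra: a map onto a nonzero space from a line is injective on the line. -/
theorem bdMono_linear {X Y : Type*} [AddCommGroup X] [Module k X] [AddCommGroup Y] [Module k Y]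
    (Θ : X →ₗ[k] Y) (B : Submodule k X) (y₀ : Y) (hy₀ : y₀ ≠ 0)
    (honto : ∀ y : Y, ∃ x ∈ B, Θ x = y)
    (hspan : ∃ x₀ ∈ B, ∀ x ∈ B, ∃ c : k, x = c • x₀) :
    ∀ x ∈ B, Θ x = 0 → x = 0 := by
  obtain ⟨x₀, -, hx₀⟩ := hspan
  obtain ⟨x₁, hx₁, hΘ⟩ := honto y₀
  obtain ⟨c₁, rfl⟩ := hx₀ x₁ hx₁
  have hΘ0 : Θ x₀ ≠ 0 := by
    intro h0
    apply hy₀
    rw [← hΘ, map_smul, h0, smul_zero]
  intro x hx hΘx
  obtain ⟨c, rfl⟩ := hx₀ x hx
  rw [map_smul, smul_eq_zero] at hΘx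
  rcases hΘx with h | h
  · rw [h, zero_smul]
  · exact absurd h hΘ0

lemma bm_dualCx_d (K : CochainComplex (ModuleCat.{u} k) ℕ) (n : ℕ) :
    (dualCx K).d n (n + 1) = dualD K n :=
  CochainComplex.of_d _ _ n

/-- If `K` has a nonzero `0`-cocycle, then `H³(dualCx K) ≠ 0`. -/
theorem exists_ne_zero_dualCx_homology3 (K : CochainComplex (ModuleCat.{u} k) ℕ)
    (e : K.X 0) (he : e ≠ 0) (hde : (K.d 0 1).hom e = 0) :
    ∃ y : (dualCx K).homology 3, y ≠ 0 := by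
  obtain ⟨ξ, hξ⟩ := Module.Projective.exists_dual_ne_zero k he
  have hd3 : ((dualCx K).d 3 (3 + 1)).hom (show (dualCx K).X 3 from ξ) = 0 := by
    rw [bm_dualCx_d]
    rfl
  refine ⟨hMk (dualCx K) 3 (show (dualCx K).X 3 from ξ) hd3, ?_⟩
  intro h0
  obtain ⟨η, hη⟩ := (hapi_hMk_succ_eq_zero_iff (dualCx K) 2 _ hd3).1 h0
  rw [bm_dualCx_d] at hη
  apply hξ
  have h1 : (show Module.Dual k (K.X 1) from η) ∘ₗ (K.d 0 1).hom = ξ := hη
  rw [← h1, LinearMap.comp_apply, hde, map_zero]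

end abstract


section concrete

variable {k G : Type u} [Field k] [Group G]

/-- The function `[g N] ↦ χ g` on `G ⧸ N` (`χ|N = 1`). -/
def bmChiFun (χ : G →* kˣ) (N : Subgroup G) (hχ : ∀ s ∈ N, χ s = 1) : G ⧸ N → k :=
  Quotient.lift (s := QuotientGroup.leftRel N) (fun g => ((χ g : kˣ) : k)) (by
    intro a b hab
    have hab' : a⁻¹ * b ∈ N := QuotientGroup.leftRel_apply.1 hab
    have h1 := hχ _ hab'
    have h2 : χ b = χ a := by
      have : b = a * (a⁻¹ * b) := by group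
      rw [this, map_mul, h1, mul_one]
    show ((χ a : kˣ) : k) = ((χ b : kˣ) : k)
    rw [h2])

@[simp] lemma bmChiFun_mk (χ : G →* kˣ) (N : Subgroup G) (hχ : ∀ s ∈ N, χ s = 1) (g : G) :
    bmChiFun χ N hχ (g : G ⧸ N) = ((χ g : kˣ) : k) := rfl

lemma bmChiFun_smul (χ : G →* kˣ) (N : Subgroup G) (hχ : ∀ s ∈ N, χ s = 1) (g : G)
    (x : G ⧸ N) : bmChiFun χ N hχ (g • x) = ((χ g : kˣ) : k) * bmChiFun χ N hχ x := by
  induction x using QuotientGroup.induction_on with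
  | H h =>
    rw [MulAction.Quotient.smul_mk, smul_eq_mul, bmChiFun_mk, bmChiFun_mk, map_mul,
      Units.val_mul]

/-- The invariant linear form `ε([g N]) = χ g` on `k[G/N]`. -/
noncomputable def bmEps (χ : G →* kˣ) (N : Subgroup G) (hχ : ∀ s ∈ N, χ s = 1) :
    Module.Dual k (Rep.ofMulAction k G (G ⧸ N)) :=
  (Finsupp.linearCombination k (bmChiFun χ N hχ)) ∘ₗ
    (MonoidAlgebra.coeffLinearEquiv k).toLinearMap

lemma bmEps_single (χ : G →* kˣ) (N : Subgroup G) (hχ : ∀ s ∈ N, χ s = 1) (x : G ⧸ N)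
    (a : k) : bmEps χ N hχ (MonoidAlgebra.single x a) = a * bmChiFun χ N hχ x := by
  simp [bmEps]

lemma bmEps_ne_zero (χ : G →* kˣ) (N : Subgroup G) (hχ : ∀ s ∈ N, χ s = 1) :
    bmEps χ N hχ ≠ 0 := by
  intro h
  have h1 := bmEps_single χ N hχ ((1 : G) : G ⧸ N) 1
  rw [h] at h1
  simp at h1

lemma bmEps_invariant (χ : G →* kˣ) (N : Subgroup G) (hχ : ∀ s ∈ N, χ s = 1) (g : G) :
    ((Rep.ofMulAction k G (G ⧸ N)).dualTwist χ).ρ g (bmEps χ N hχ) = bmEps χ N hχ := by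
  rw [Rep.dualTwist_ρ_apply]
  refine MonoidAlgebra.lhom_ext' fun x => ?_
  refine LinearMap.ext fun a => ?_
  simp only [LinearMap.comp_apply, LinearMap.smul_apply, MonoidAlgebra.lsingle_apply]
  have h1 : ((Rep.ofMulAction k G (G ⧸ N)).ρ g⁻¹) (MonoidAlgebra.single x a) =
      MonoidAlgebra.single (g⁻¹ • x) a := Representation.ofMulAction_single _ _ _
  rw [h1, bmEps_single, bmEps_single, bmChiFun_smul, map_inv, smul_eq_mul]
  have h2 : ((χ g : kˣ) : k) * (((χ g)⁻¹ : kˣ) : k) = 1 := by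
    rw [← Units.val_mul, mul_inv_cancel, Units.val_one]
  calc ((χ g : kˣ) : k) * (a * ((((χ g)⁻¹ : kˣ) : k) * bmChiFun χ N hχ x))
      = (((χ g : kˣ) : k) * (((χ g)⁻¹ : kˣ) : k)) * (a * bmChiFun χ N hχ x) := by ring
    _ = a * bmChiFun χ N hχ x := by rw [h2, one_mul]


/-- The invariant `0`-cochain with value `ε`. -/
noncomputable def bmCochain (𝒰 : LevelSys G) (χ : G →* kˣ) (N : Subgroup G) (hN : N ∈ 𝒰.sets)
    (hχ : ∀ s ∈ N, χ s = 1) :
    lvlCochains 𝒰 ((Rep.ofMulAction k G (G ⧸ N)).dualTwist χ) 0 :=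
  ⟨fun _ => bmEps χ N hχ, N, hN, fun _ _ _ => rfl, fun _ s _ => bmEps_invariant χ N hχ s⟩

lemma bmCochain_ne_zero (𝒰 : LevelSys G) (χ : G →* kˣ) (N : Subgroup G) (hN : N ∈ 𝒰.sets)
    (hχ : ∀ s ∈ N, χ s = 1) : bmCochain 𝒰 χ N hN hχ ≠ 0 := by
  intro h
  apply bmEps_ne_zero χ N hχ
  have h1 : (bmCochain 𝒰 χ N hN hχ).1 (fun _ => 1) = bmEps χ N hχ := rfl
  rw [← h1, h]
  rfl

lemma bmCochain_d (𝒰 : LevelSys G) (χ : G →* kˣ) (N : Subgroup G) (hN : N ∈ 𝒰.sets)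
    (hχ : ∀ s ∈ N, χ s = 1) :
    lvlD 𝒰 ((Rep.ofMulAction k G (G ⧸ N)).dualTwist χ) 0 (bmCochain 𝒰 χ N hN hχ) = 0 := by
  apply Subtype.ext
  rw [lvlD_coe]
  funext g
  rw [inhomogeneousCochains.d_hom_apply]
  simp only [bmCochain]
  rw [bmEps_invariant]
  simp

/-- `H³` of the dual side of `k[G/N]` is not zero. -/
theorem exists_ne_zero_dualSide_homology3 (𝒰 : LevelSys G) (χ : G →* kˣ) (N : Subgroup G)
    (hN : N ∈ 𝒰.sets) (hχ : ∀ s ∈ N, χ s = 1) :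
    ∃ y : (dualCx (lvlComplex 𝒰 ((Rep.ofMulAction k G (G ⧸ N)).dualTwist χ))).homology 3,
      y ≠ 0 := by
  refine exists_ne_zero_dualCx_homology3 _ (bmCochain 𝒰 χ N hN hχ)
    (bmCochain_ne_zero 𝒰 χ N hN hχ) ?_
  have h1 : ∀ x : lvlCochains 𝒰 ((Rep.ofMulAction k G (G ⧸ N)).dualTwist χ) 0,
      ((lvlComplex 𝒰 ((Rep.ofMulAction k G (G ⧸ N)).dualTwist χ)).d 0 (0 + 1)).hom x =
        lvlD 𝒰 ((Rep.ofMulAction k G (G ⧸ N)).dualTwist χ) 0 x := by
    intro x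
    simp [CochainComplex.of.d]
  exact (h1 _).trans (bmCochain_d 𝒰 χ N hN hχ)

end concrete

/-- **[M3-BD]** (row 944). -/
theorem bdMono : BdMonoStatement := by
  intro p _ G _ 𝔄 T hc v N hN hχ honto hspan
  obtain ⟨y₀, hy₀⟩ := exists_ne_zero_dualSide_homology3 (k := ZMod p) 𝔄.lvl 𝔄.χ N hN hχ
  exact bdMono_linear
    (HomologicalComplex.homologyMap
      (thetaHom (Rep.ofMulAction (ZMod p) G (G ⧸ N)) T (hc _)) 3).hom
    (bdRange 𝔄 v (Rep.ofMulAction (ZMod p) G (G ⧸ N))) y₀ hy₀ honto hspan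

end Fermat.Agent.H5.Cft
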