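import Fermat.Agent.H78.CFT.LocalInvRows
import Fermat.Agent.H24.Brauer.Final

/-!
# P-CFT / LOCAL, row H3-TATE (helper5): `TateLocalAbsStatement`

`Fermat.Agent.H78.CFT.TateLocalAbsStatement` is literally helper24's
`Fermat.Agent.H24.Brauer.LocalTateH3AbsStatement`, which he proved from `UnramSplitStatement`
(row BR-UNRAM) in `Fermat.Agent.H24.Brauer.Final`.  This file is the adapter.
-/

set_option autoImplicit false
set_option synthInstance.maxHeartbeats 400000

namespace Fermat.Agent.H5.Cft

open Fermat.Agent.H24.Brauer

/-- The two forms of the local Tate theorem in degree 3 coincide. -/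
theorem tateLocalAbs_iff :
    Fermat.Agent.H78.CFT.TateLocalAbsStatement ↔ LocalTateH3AbsStatement := Iff.rfl

/-- **[H3-TATE]** from the `H²`-statement for `p`-groups and the tower statement. -/
theorem tateLocalAbs_of (h : PGroupCardAbsStatement) (hT : LocalPairTowerStatement) :
    Fermat.Agent.H78.CFT.TateLocalAbsStatement :=
  localTateH3Abs_of h hT

/-- **[H3-TATE]** from `UnramSplitStatement` (row BR-UNRAM) alone. -/
theorem tateLocalAbs_of_unramSplit (h : UnramSplitStatement) :
    Fermat.Agent.H78.CFT.TateLocalAbsStatement :=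
  localTateH3Abs_of_unramSplit h

end Fermat.Agent.H5.Cft
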